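/-
S12 cell, brick (Q-alg), part 2 (helper82): Vélu's formulas for the quotient of a Weierstrass
curve by a cyclic subgroup `⟨T⟩` of order `n`, in the ORIGINAL Weierstrass letters
(`a₁, a₂, a₃` are kept, so no denominators at `2`, `3` are introduced).

* `veluT n T = ∑_{0<k<n} (6x_k² + b₂x_k + b₄)`  (`= 2 t`),
* `veluW n T = ∑_{0<k<n} ((2y_k + a₁x_k + a₃)² + x_k (6x_k² + b₂x_k + b₄))`  (`= 2 w`),
* `veluCurve W t w = [a₁, a₂, a₃, a₄ - 5t, a₆ - b₂t - 7w]`,
* `veluX n T P = x(P) + ∑_{0<k<n} (x(P + kT) - x(kT))`, `veluY` likewise.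
-/
import Mathlib
import Fermat.Agent.S15P.M2.Defs89

set_option autoImplicit false

namespace Fermat.Agent.S12P.Velu82

open WeierstrassCurve WeierstrassCurve.Affine Fermat.Agent.S15P.M2

section Defs

variable {F : Type*} [Field F] [DecidableEq F] {W : Affine F}

/-- `∑_{0<k<n} (6x² + b₂x + b₄)(k • T)`; Vélu's `t` is half of it. -/
def veluT (n : ℕ) (T : W.Point) : F := ∑ k ∈ Finset.Ico 1 n, tq (k • T)

/-- `∑_{0<k<n} ((2y + a₁x + a₃)² + x (6x² + b₂x + b₄))(k • T)`; Vélu's `w` is half of it. -/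
def veluW (n : ℕ) (T : W.Point) : F :=
  ∑ k ∈ Finset.Ico 1 n, (psi2 (k • T) ^ 2 + ptX (k • T) * tq (k • T))

/-- Vélu's `X`-coordinate of the image of `P` in the quotient by `⟨T⟩`. -/
def veluX (n : ℕ) (T P : W.Point) : F :=
  ptX P + ∑ k ∈ Finset.Ico 1 n, (ptX (P + k • T) - ptX (k • T))

/-- Vélu's `Y`-coordinate of the image of `P` in the quotient by `⟨T⟩`. -/
def veluY (n : ℕ) (T P : W.Point) : F :=
  ptY P + ∑ k ∈ Finset.Ico 1 n, (ptY (P + k • T) - ptY (k • T))

end Defs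

section Curve

variable {F : Type*} [CommRing F]

/-- Vélu's model of the quotient curve: `[a₁, a₂, a₃, a₄ - 5t, a₆ - b₂t - 7w]`. -/
def veluCurve (W : WeierstrassCurve F) (t w : F) : WeierstrassCurve F :=
  ⟨W.a₁, W.a₂, W.a₃, W.a₄ - 5 * t, W.a₆ - W.b₂ * t - 7 * w⟩

variable (W : WeierstrassCurve F) (t w : F)

@[simp] theorem veluCurve_a₁ : (veluCurve W t w).a₁ = W.a₁ := rfl
@[simp] theorem veluCurve_a₂ : (veluCurve W t w).a₂ = W.a₂ := rfl
@[simp] theorem veluCurve_a₃ : (veluCurve W t w).a₃ = W.a₃ := rfl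
@[simp] theorem veluCurve_a₄ : (veluCurve W t w).a₄ = W.a₄ - 5 * t := rfl
@[simp] theorem veluCurve_a₆ : (veluCurve W t w).a₆ = W.a₆ - W.b₂ * t - 7 * w := rfl

theorem veluCurve_b₂ : (veluCurve W t w).b₂ = W.b₂ := rfl

theorem veluCurve_c₄ : (veluCurve W t w).c₄ = W.c₄ + 240 * t := by
  simp only [WeierstrassCurve.c₄, WeierstrassCurve.b₂, WeierstrassCurve.b₄, veluCurve_a₁,
    veluCurve_a₂, veluCurve_a₃, veluCurve_a₄]
  ring

theorem veluCurve_c₆ : (veluCurve W t w).c₆ = W.c₆ + 504 * W.b₂ * t + 6048 * w := by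
  simp only [WeierstrassCurve.c₆, WeierstrassCurve.b₂, WeierstrassCurve.b₄, WeierstrassCurve.b₆,
    veluCurve_a₁, veluCurve_a₂, veluCurve_a₃, veluCurve_a₄, veluCurve_a₆]
  ring

theorem veluCurve_map {K : Type*} [CommRing K] (f : F →+* K) :
    (veluCurve W t w).map f = veluCurve (W.map f) (f t) (f w) := by
  ext <;> simp [veluCurve, WeierstrassCurve.b₂, map_ofNat]

end Curve

section Points

variable {F : Type*} [Field F] [DecidableEq F] {W : Affine F}

theorem psi2_neg {P : W.Point} (hP : P ≠ 0) : psi2 (-P) = -psi2 P := by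
  rcases P with _ | ⟨x, y, h⟩
  · exact absurd rfl hP
  · rw [Point.neg_some]
    simp only [psi2, ptX_some, ptY_some, Affine.negY]
    ring

omit [DecidableEq F] in
/-- On the curve, `(2y + a₁x + a₃)² = 4x³ + b₂x² + 2b₄x + b₆`. -/
theorem psi2_sq {P : W.Point} (hP : P ≠ 0) :
    psi2 P ^ 2 = 4 * ptX P ^ 3 + W.b₂ * ptX P ^ 2 + 2 * W.b₄ * ptX P + W.b₆ := by
  rcases P with _ | ⟨x, y, h⟩
  · exact absurd rfl hP
  · have he := (Affine.equation_iff x y).mp h.1
    simp only [psi2, ptX_some, ptY_some, WeierstrassCurve.b₂, WeierstrassCurve.b₄,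
      WeierstrassCurve.b₆]
    linear_combination 4 * he

/-- The sum of `2y + a₁x + a₃` over the nonzero multiples of a point of order `n` vanishes. -/
theorem sum_psi2_eq_zero [CharZero F] {n : ℕ} {T : W.Point} (hTn : addOrderOf T = n) :
    ∑ k ∈ Finset.Ico 1 n, psi2 (k • T) = 0 := by
  have hT : n • T = 0 := by rw [← hTn]; exact addOrderOf_nsmul_eq_zero T
  have hrefl := Finset.sum_Ico_reflect (fun k => psi2 (k • T)) 1 (Nat.le_succ n)
  have h1 : ∑ j ∈ Finset.Ico 1 n, psi2 ((n - j) • T) = ∑ j ∈ Finset.Ico 1 n, -psi2 (j • T) := by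
    apply Finset.sum_congr rfl
    intro j hj
    have hjn : j ≤ n := (Finset.mem_Ico.mp hj).2.le
    have : (n - j) • T = -(j • T) := by
      rw [eq_neg_iff_add_eq_zero, ← add_nsmul, Nat.sub_add_cancel hjn, hT]
    have hne : j • T ≠ 0 := by
      intro h0
      have hd := addOrderOf_dvd_of_nsmul_eq_zero h0
      rw [hTn] at hd
      have := Nat.le_of_dvd (Finset.mem_Ico.mp hj).1 hd
      have := (Finset.mem_Ico.mp hj).2
      omega
    rw [this, psi2_neg hne]
  have h2 : ∑ j ∈ Finset.Ico (n + 1 - n) (n + 1 - 1), psi2 (j • T)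
      = ∑ j ∈ Finset.Ico 1 n, psi2 (j • T) := by
    have e1 : n + 1 - n = 1 := by omega
    have e2 : n + 1 - 1 = n := by omega
    rw [e1, e2]
  rw [h1, h2, Finset.sum_neg_distrib] at hrefl
  have h3 : (2 : F) * ∑ j ∈ Finset.Ico 1 n, psi2 (j • T) = 0 := by linear_combination -hrefl
  rcases mul_eq_zero.mp h3 with h | h
  · exact absurd h two_ne_zero
  · exact h

end Points

end Fermat.Agent.S12P.Velu82
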