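/-
S12 cell, brick (Q-alg), part 4 (helper82): algebraic side of Vélu's formulas over `ℚ̄`.

* base change of the Vélu quantities along a `ℚ`-algebra map `ℚ̄ → K`;
* independence of the generator of the cyclic group (reindexing `k ↦ mk`);
* hence Galois invariance: `veluT`, `veluW` are rational when `⟨T⟩` is Galois-stable, and
  `σ (veluX n T P) = veluX n T (σ • P)`;
* `mkPt`: the point with prescribed coordinates.
-/
import Mathlib
import Fermat.Prelude.Def_FLTPrelim_GaloisRep
import Fermat.Agent.Lib.GalQbar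
import Fermat.Agent.S12P.Velu82.Defs

set_option autoImplicit false

namespace Fermat.Agent.S12P.Velu82

open WeierstrassCurve WeierstrassCurve.Affine Fermat.Agent.S15P.M2

local notation "Qb" => AlgebraicClosure ℚ

/-! ### Reindexing a sum over the nonzero multiples of a generator -/

section Reindex

variable {G M : Type*} [AddCommGroup G] [AddCommGroup M]

theorem exists_lt_nsmul_eq {n : ℕ} (hn : 0 < n) {T : G} (hT : addOrderOf T = n) {x : G}
    (hx : x ∈ AddSubgroup.zmultiples T) : ∃ j < n, j • T = x := by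
  obtain ⟨m, rfl⟩ := AddSubgroup.mem_zmultiples_iff.mp hx
  have hnn : 0 ≤ m % (n : ℤ) := Int.emod_nonneg _ (by exact_mod_cast hn.ne')
  have hlt : m % (n : ℤ) < n := Int.emod_lt_of_pos _ (by exact_mod_cast hn)
  refine ⟨(m % (n : ℤ)).toNat, by omega, ?_⟩
  rw [← natCast_zsmul, Int.toNat_of_nonneg hnn, ← hT, zsmul_eq_zsmul_iff_modEq]
  exact Int.mod_modEq m _

theorem sum_range_nsmul_eq {n : ℕ} (hn : 0 < n) {T T' : G} (hT : addOrderOf T = n)
    (hT' : addOrderOf T' = n) (hmem : T' ∈ AddSubgroup.zmultiples T) (F : G → M) :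
    ∑ k ∈ Finset.range n, F (k • T') = ∑ k ∈ Finset.range n, F (k • T) := by
  classical
  have hinj : Set.InjOn (fun k : ℕ => k • T) (Finset.range n : Set ℕ) := by
    intro a ha b hb hab
    apply nsmul_injOn_Iio_addOrderOf (x := T)
    · rw [hT]; exact Finset.mem_range.mp ha
    · rw [hT]; exact Finset.mem_range.mp hb
    · exact hab
  have hinj' : Set.InjOn (fun k : ℕ => k • T') (Finset.range n : Set ℕ) := by
    intro a ha b hb hab
    apply nsmul_injOn_Iio_addOrderOf (x := T')
    · rw [hT']; exact Finset.mem_range.mp ha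
    · rw [hT']; exact Finset.mem_range.mp hb
    · exact hab
  have hsub : (Finset.range n).image (fun k : ℕ => k • T') ⊆
      (Finset.range n).image (fun k : ℕ => k • T) := by
    intro x hx
    obtain ⟨k, _, rfl⟩ := Finset.mem_image.mp hx
    obtain ⟨j, hj, hjx⟩ := exists_lt_nsmul_eq hn hT
      ((AddSubgroup.zmultiples T).nsmul_mem hmem k)
    exact Finset.mem_image.mpr ⟨j, Finset.mem_range.mpr hj, hjx⟩
  have hcard : ((Finset.range n).image (fun k : ℕ => k • T)).card ≤
      ((Finset.range n).image (fun k : ℕ => k • T')).card := by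
    rw [Finset.card_image_of_injOn hinj, Finset.card_image_of_injOn hinj']
  have heq := Finset.eq_of_subset_of_card_le hsub hcard
  rw [← Finset.sum_image (f := F) hinj', ← Finset.sum_image (f := F) hinj, heq]

theorem sum_Ico_nsmul_eq {n : ℕ} (hn : 0 < n) {T T' : G} (hT : addOrderOf T = n)
    (hT' : addOrderOf T' = n) (hmem : T' ∈ AddSubgroup.zmultiples T) (F : G → M) :
    ∑ k ∈ Finset.Ico 1 n, F (k • T') = ∑ k ∈ Finset.Ico 1 n, F (k • T) := by
  have h := sum_range_nsmul_eq hn hT hT' hmem F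
  rw [Finset.range_eq_Ico, Finset.sum_eq_sum_Ico_succ_bot hn, Finset.sum_eq_sum_Ico_succ_bot hn,
    zero_nsmul, zero_nsmul] at h
  exact add_left_cancel h

end Reindex

/-! ### Independence of the generator -/

section Gen

variable {F : Type*} [Field F] [DecidableEq F] {W : Affine F}

theorem veluT_congr {n : ℕ} (hn : 0 < n) {T T' : W.Point} (hT : addOrderOf T = n)
    (hT' : addOrderOf T' = n) (hmem : T' ∈ AddSubgroup.zmultiples T) :
    veluT n T' = veluT n T :=
  sum_Ico_nsmul_eq hn hT hT' hmem tq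

theorem veluW_congr {n : ℕ} (hn : 0 < n) {T T' : W.Point} (hT : addOrderOf T = n)
    (hT' : addOrderOf T' = n) (hmem : T' ∈ AddSubgroup.zmultiples T) :
    veluW n T' = veluW n T :=
  sum_Ico_nsmul_eq hn hT hT' hmem fun S => psi2 S ^ 2 + ptX S * tq S

theorem veluX_congr {n : ℕ} (hn : 0 < n) {T T' : W.Point} (hT : addOrderOf T = n)
    (hT' : addOrderOf T' = n) (hmem : T' ∈ AddSubgroup.zmultiples T) (P : W.Point) :
    veluX n T' P = veluX n T P := by
  unfold veluX
  rw [sum_Ico_nsmul_eq hn hT hT' hmem fun S => ptX (P + S) - ptX S]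

theorem veluY_congr {n : ℕ} (hn : 0 < n) {T T' : W.Point} (hT : addOrderOf T = n)
    (hT' : addOrderOf T' = n) (hmem : T' ∈ AddSubgroup.zmultiples T) (P : W.Point) :
    veluY n T' P = veluY n T P := by
  unfold veluY
  rw [sum_Ico_nsmul_eq hn hT hT' hmem fun S => ptY (P + S) - ptY S]

end Gen

/-! ### Base change along `ℚ̄ → K` -/

section Map

variable (W : WeierstrassCurve ℚ) {K : Type*} [Field K] [DecidableEq K] [Algebra ℚ K]
  (f : Qb →ₐ[ℚ] K)

theorem ptX_map (P : (W⁄Qb).Point) : ptX (Point.map f P) = f (ptX P) := by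
  rcases P with _ | ⟨x, y, h⟩
  · exact (map_zero f).symm
  · rfl

theorem ptY_map (P : (W⁄Qb).Point) : ptY (Point.map f P) = f (ptY P) := by
  rcases P with _ | ⟨x, y, h⟩
  · exact (map_zero f).symm
  · rfl

theorem a₁_map : f (W⁄Qb).a₁ = (W⁄K).a₁ := f.commutes _
theorem a₃_map : f (W⁄Qb).a₃ = (W⁄K).a₃ := f.commutes _

theorem b₂_map : f (W⁄Qb).b₂ = (W⁄K).b₂ := by
  change f (W.map (algebraMap ℚ Qb)).b₂ = (W.map (algebraMap ℚ K)).b₂
  rw [map_b₂, map_b₂]
  exact f.commutes _

theorem b₄_map : f (W⁄Qb).b₄ = (W⁄K).b₄ := by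
  change f (W.map (algebraMap ℚ Qb)).b₄ = (W.map (algebraMap ℚ K)).b₄
  rw [map_b₄, map_b₄]
  exact f.commutes _

theorem tq_map (P : (W⁄Qb).Point) : tq (Point.map f P) = f (tq P) := by
  unfold tq
  rw [ptX_map, map_add, map_add, map_mul, map_mul, map_pow, b₂_map, b₄_map, map_ofNat]

theorem psi2_map (P : (W⁄Qb).Point) : psi2 (Point.map f P) = f (psi2 P) := by
  unfold psi2
  rw [ptX_map, ptY_map, map_add, map_add, map_mul, map_mul, a₁_map, a₃_map, map_ofNat]

theorem veluT_map (n : ℕ) (T : (W⁄Qb).Point) : f (veluT n T) = veluT n (Point.map f T) := by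
  unfold veluT
  rw [map_sum]
  apply Finset.sum_congr rfl
  intro k _
  rw [← map_nsmul (Point.map f) k T, tq_map]

theorem veluW_map (n : ℕ) (T : (W⁄Qb).Point) : f (veluW n T) = veluW n (Point.map f T) := by
  unfold veluW
  rw [map_sum]
  apply Finset.sum_congr rfl
  intro k _
  rw [← map_nsmul (Point.map f) k T, tq_map, psi2_map, ptX_map, map_add, map_mul, map_pow]

theorem veluX_map (n : ℕ) (T P : (W⁄Qb).Point) :
    f (veluX n T P) = veluX n (Point.map f T) (Point.map f P) := by
  unfold veluX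
  rw [map_add, map_sum, ptX_map]
  congr 1
  apply Finset.sum_congr rfl
  intro k _
  rw [← map_nsmul (Point.map f) k T, ← map_add (Point.map f), ptX_map, ptX_map, map_sub]

theorem veluY_map (n : ℕ) (T P : (W⁄Qb).Point) :
    f (veluY n T P) = veluY n (Point.map f T) (Point.map f P) := by
  unfold veluY
  rw [map_add, map_sum, ptY_map]
  congr 1
  apply Finset.sum_congr rfl
  intro k _
  rw [← map_nsmul (Point.map f) k T, ← map_add (Point.map f), ptY_map, ptY_map, map_sub]

theorem addOrderOf_map (T : (W⁄Qb).Point) : addOrderOf (Point.map f T) = addOrderOf T :=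
  addOrderOf_injective (Point.map f) (Point.map_injective f) T

end Map

end Fermat.Agent.S12P.Velu82
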