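/-
S12 cell, brick (Q-alg), part 1 (helper82): the superlattice `Λ + ℤ z₀` of a point `z₀` of exact
order `n` (ANY `n > 0`) on `ℂ / Λ` is the lattice of a `PeriodPair`.

Generalises the prime case contained in `S15P/M1/Tau36.exists_tau_super`.
-/
import Mathlib
import Fermat.Agent.S15P.M1.Tau36
import Fermat.Agent.S15P.M1.Isog4

set_option autoImplicit false

namespace Fermat.Agent.S12P.Velu82.Super

open UpperHalfPlane
open Fermat.Agent.S15P.M1 Fermat.Agent.S15P.M1.Tau36 Fermat.Agent.S15P.M1.Unif21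
  Fermat.Agent.S15P.M1.Isog4 Fermat.Agent.S20.JInj

/-- A primitive row `(γ, δ)` with `(a, b) ≡ k₀ (γ, δ)` mod `n`, `k₀` a unit mod `n`. -/
theorem exists_row_gen (n : ℕ) (a b : ℤ) (hab : Int.gcd (Int.gcd a b : ℤ) (n : ℤ) = 1) :
    ∃ α β γ δ k₀ k₁ s t m : ℤ, α * δ - β * γ = 1 ∧ a = k₀ * γ + n * s ∧ b = k₀ * δ + n * t ∧
      k₁ * k₀ = 1 + n * m := by
  by_cases h0 : Int.gcd a b = 0
  · -- `a = b = 0`, hence `n = 1`
    have ha : a = 0 := (Int.gcd_eq_zero_iff.mp h0).1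
    have hb : b = 0 := (Int.gcd_eq_zero_iff.mp h0).2
    rw [h0] at hab
    have hn : (n : ℤ) = 1 := by
      have : Int.gcd (0 : ℤ) (n : ℤ) = n := by simp
      rw [Nat.cast_zero, this] at hab
      exact_mod_cast hab
    exact ⟨1, 0, 0, 1, 0, 0, 0, 0, -1, by ring, by rw [ha]; ring, by rw [hb]; ring,
      by rw [hn]; ring⟩
  · have hpos : 0 < Int.gcd a b := Nat.pos_of_ne_zero h0
    obtain ⟨a₁, b₁, hcop, ha, hb⟩ := Int.exists_gcd_one hpos
    have hcop' : IsCoprime a₁ b₁ := Int.isCoprime_iff_gcd_eq_one.mpr hcop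
    obtain ⟨x, y, hxy⟩ := hcop'
    have hgn : IsCoprime (Int.gcd a b : ℤ) (n : ℤ) := Int.isCoprime_iff_gcd_eq_one.mpr hab
    obtain ⟨u, v, huv⟩ := hgn
    refine ⟨y, -x, a₁, b₁, (Int.gcd a b : ℤ), u, 0, 0, -v, ?_, ?_, ?_, ?_⟩
    · linear_combination hxy
    · linear_combination ha
    · linear_combination hb
    · linear_combination huv

/-- **The superlattice.** For `z₀` of exact order `n` modulo the lattice of `L`, the group
`Λ + ℤ z₀` is the lattice of a period pair. -/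
theorem exists_super (L : PeriodPair) (n : ℕ) (hn : 0 < n) (z₀ : ℂ)
    (horder : ∀ k : ℕ, (k : ℂ) * z₀ ∈ L.lattice ↔ n ∣ k) :
    ∃ L' : PeriodPair, IsSuper L L' n z₀ := by
  have hn0 : (n : ℂ) ≠ 0 := Nat.cast_ne_zero.mpr hn.ne'
  have hnz : (n : ℂ) * z₀ ∈ L.lattice := (horder n).mpr dvd_rfl
  obtain ⟨c, hc, τ₀, hL⟩ := exists_ppOf_lattice L
  obtain ⟨a, b, hab⟩ : ∃ a b : ℤ, (n : ℂ) * z₀ = (a : ℂ) * (c * τ₀) + b * c := by
    rw [← hL] at hnz; exact mem_lattice_ppOf.mp hnz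
  -- the vector `(a, b)` is primitive modulo `n`
  have hgcd : Int.gcd (Int.gcd a b : ℤ) (n : ℤ) = 1 := by
    set d : ℕ := Int.gcd (Int.gcd a b : ℤ) (n : ℤ) with hd
    have hdn : (d : ℤ) ∣ (n : ℤ) := Int.gcd_dvd_right _ _
    have hdg : (d : ℤ) ∣ (Int.gcd a b : ℤ) := Int.gcd_dvd_left _ _
    have hda : (d : ℤ) ∣ a := hdg.trans (Int.gcd_dvd_left a b)
    have hdb : (d : ℤ) ∣ b := hdg.trans (Int.gcd_dvd_right a b)
    have hdn' : d ∣ n := Int.natCast_dvd_natCast.mp hdn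
    obtain ⟨e, he⟩ := hdn'
    obtain ⟨a', ha'⟩ := hda
    obtain ⟨b', hb'⟩ := hdb
    have hd0 : d ≠ 0 := by
      rintro h0
      rw [h0, zero_mul] at he
      omega
    have hdC : (d : ℂ) ≠ 0 := Nat.cast_ne_zero.mpr hd0
    have hmem : (e : ℂ) * z₀ ∈ L.lattice := by
      rw [← hL]
      refine mem_lattice_ppOf.mpr ⟨a', b', ?_⟩
      apply mul_left_cancel₀ hdC
      have h1 : (d : ℂ) * ((e : ℂ) * z₀) = (n : ℂ) * z₀ := by
        rw [he]; push_cast; ring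
      rw [h1, hab, ha', hb']
      push_cast
      ring
    have hne : n ∣ e := (horder e).mp hmem
    have he0 : 0 < e := by
      rcases Nat.eq_zero_or_pos e with h | h
      · rw [h, mul_zero] at he; omega
      · exact h
    have hle : n ≤ e := Nat.le_of_dvd he0 hne
    have : d * e ≤ 1 * e := by rw [← he, one_mul]; exact hle
    have hd1 : d ≤ 1 := Nat.le_of_mul_le_mul_right this he0
    omega
  obtain ⟨α, β, γ, δ, k₀, k₁, s, t, m, hdet, ha, hb, hk⟩ := exists_row_gen n a b hgcd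
  obtain ⟨c', hc', τ, hc'eq, hlat⟩ := exists_basis_change c hc τ₀ α β γ δ hdet
  have hLlat : L.lattice = (ppOf c' hc' τ).lattice := by rw [hlat, hL]
  have hε0 : c' / (n : ℂ) ≠ 0 := div_ne_zero hc' hn0
  have him : 0 < ((n : ℂ) * τ).im := by
    rw [Complex.mul_im]
    simp only [Complex.natCast_re, Complex.natCast_im, zero_mul, add_zero, UpperHalfPlane.coe_im]
    exact mul_pos (Nat.cast_pos.mpr hn) τ.im_pos
  have hτ'c : ((⟨(n : ℂ) * τ, him⟩ : ℍ) : ℂ) = (n : ℂ) * τ := rfl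
  refine ⟨ppOf (c' / (n : ℂ)) hε0 ⟨(n : ℂ) * τ, him⟩, horder, ?_⟩
  have hl1 : c * ((s : ℂ) * τ₀ + t) ∈ L.lattice := by
    rw [← hL]; exact mem_lattice_ppOf.mpr ⟨s, t, by ring⟩
  have hc'mem : c' ∈ L.lattice := by
    rw [hLlat]; exact (ppOf c' hc' τ).ω₂_mem_lattice
  have hc'τmem : c' * (τ : ℂ) ∈ L.lattice := by
    rw [hLlat]; exact (ppOf c' hc' τ).ω₁_mem_lattice
  have hpe : (n : ℂ) * (c' / (n : ℂ)) = c' := by field_simp
  have hz1 : z₀ = k₀ * (c' / (n : ℂ)) + c * ((s : ℂ) * τ₀ + t) := by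
    apply mul_left_cancel₀ hn0
    rw [hab, hc'eq, ha, hb]
    push_cast
    field_simp
    ring
  have hz2 : c' / (n : ℂ) = k₁ * z₀ + (-(m : ℂ) * c' - k₁ * (c * ((s : ℂ) * τ₀ + t))) := by
    have hk' : (k₁ : ℂ) * k₀ = 1 + n * m := by exact_mod_cast hk
    linear_combination (-(c' / (n : ℂ))) * hk' - (m : ℂ) * hpe - (k₁ : ℂ) * hz1
  have hl2 : (-(m : ℂ) * c' - k₁ * (c * ((s : ℂ) * τ₀ + t))) ∈ L.lattice := by
    have : (-(m : ℂ) * c' - k₁ * (c * ((s : ℂ) * τ₀ + t)))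
        = (-m) • c' - k₁ • (c * ((s : ℂ) * τ₀ + t)) := by
      simp only [zsmul_eq_mul]; push_cast; ring
    rw [this]
    exact sub_mem (Submodule.smul_mem _ _ hc'mem) (Submodule.smul_mem _ _ hl1)
  have hLle : L.lattice ≤ (ppOf (c' / (n : ℂ)) hε0 ⟨(n : ℂ) * τ, him⟩).lattice := by
    rw [hLlat, lattice_ppOf]
    apply Submodule.span_le.mpr
    rintro x (rfl | hx)
    · exact mem_lattice_ppOf.mpr ⟨1, 0, by rw [hτ'c]; push_cast; field_simp; ring⟩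
    · rw [Set.mem_singleton_iff.mp hx]
      exact mem_lattice_ppOf.mpr ⟨0, n, by rw [hτ'c]; push_cast; field_simp; ring⟩
  have hεmem : c' / (n : ℂ) ∈ (ppOf (c' / (n : ℂ)) hε0 ⟨(n : ℂ) * τ, him⟩).lattice :=
    (ppOf (c' / (n : ℂ)) hε0 ⟨(n : ℂ) * τ, him⟩).ω₂_mem_lattice
  intro w
  constructor
  · intro hw
    obtain ⟨m', j, hmn⟩ := mem_lattice_ppOf.mp hw
    have hετ' : c' / (n : ℂ) * ((⟨(n : ℂ) * τ, him⟩ : ℍ) : ℂ) = c' * τ := by
      rw [hτ'c]; field_simp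
    have hnn : 0 ≤ (j * k₁) % (n : ℤ) := Int.emod_nonneg _ (by exact_mod_cast hn.ne')
    have hq := Int.emod_add_mul_ediv (j * k₁) (n : ℤ)
    refine ⟨((j * k₁) % (n : ℤ)).toNat, ?_⟩
    have hr : ((((j * k₁) % (n : ℤ)).toNat : ℕ) : ℂ) = (((j * k₁) % (n : ℤ) : ℤ) : ℂ) := by
      have : ((((j * k₁) % (n : ℤ)).toNat : ℕ) : ℤ) = (j * k₁) % (n : ℤ) :=
        Int.toNat_of_nonneg hnn
      exact_mod_cast congrArg (Int.cast : ℤ → ℂ) this
    have hq' : (j : ℂ) * k₁ = (((j * k₁) % (n : ℤ) : ℤ) : ℂ)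
        + n * (((j * k₁) / (n : ℤ) : ℤ) : ℂ) := by
      exact_mod_cast congrArg (Int.cast : ℤ → ℂ) hq.symm
    have : w - ((((j * k₁) % (n : ℤ)).toNat : ℕ) : ℂ) * z₀
        = m' • (c' * (τ : ℂ)) + j • (-(m : ℂ) * c' - k₁ * (c * ((s : ℂ) * τ₀ + t)))
          + ((j * k₁) / (n : ℤ)) • ((n : ℂ) * z₀) := by
      rw [hr, hmn, hετ']
      simp only [zsmul_eq_mul]
      linear_combination (j : ℂ) * hz2 + z₀ * hq'
    rw [this]
    exact add_mem (add_mem (Submodule.smul_mem _ _ hc'τmem) (Submodule.smul_mem _ _ hl2))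
      (Submodule.smul_mem _ _ hnz)
  · rintro ⟨k, hk⟩
    have hz₀mem : z₀ ∈ (ppOf (c' / (n : ℂ)) hε0 ⟨(n : ℂ) * τ, him⟩).lattice := by
      rw [hz1]
      have : (k₀ : ℂ) * (c' / (n : ℂ)) + c * ((s : ℂ) * τ₀ + t)
          = k₀ • (c' / (n : ℂ)) + c * ((s : ℂ) * τ₀ + t) := by simp
      rw [this]
      exact add_mem (Submodule.smul_mem _ _ hεmem) (hLle hl1)
    have : w = (w - k * z₀) + (k : ℤ) • z₀ := by simp
    rw [this]
    exact add_mem (hLle hk) (Submodule.smul_mem _ _ hz₀mem)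

end Fermat.Agent.S12P.Velu82.Super
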