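/-
S12 cell, brick (Q-alg), part 3 (helper82): Vélu's isogeny over `ℂ`.

For a Weierstrass curve `Wc` over `ℂ` with `Δ ≠ 0` and a point `T` of odd order `n`, the Vélu
model `veluCurve Wc t w` (`t = veluT/2`, `w = veluW/2`) is nonsingular, has
`c₄ = veluC4 n T`, `Δ · veluPsi⁴ = Δ(Wc)^n`, and there is a group homomorphism
`Wc(ℂ) → veluCurve(ℂ)` with kernel `⟨T⟩`, given outside the kernel by Vélu's translation sums.

The analytic inputs are main's (M1) bricks (uniformisation `Unif21`, `Unif75`; `Isog4.g₂_super`,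
`Isog4.disc_super`) and the three identities `HWP`, `HDWP`, `HG3` for the superlattice
(`℘`, `℘'`, `g₃`), taken as explicit hypotheses in helper4's literal shapes.
-/
import Mathlib
import Fermat.Agent.S15P.M1.Top89
import Fermat.Agent.S15P.M1.Unif21
import Fermat.Agent.S15P.M1.Unif75
import Fermat.Agent.S15P.M1.Isog4
import Fermat.Agent.S12P.Velu82.Super
import Fermat.Agent.S12P.Velu82.Defs

set_option autoImplicit false

namespace Fermat.Agent.S12P.Velu82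

open WeierstrassCurve WeierstrassCurve.Affine PeriodPair
open Fermat.Agent.S15P.M2 Fermat.Agent.S15P.M1 Fermat.Agent.S15P.M1.Isog4
  Fermat.Agent.S05.Transfer

/-- `℘` of the superlattice as a translation sum. -/
def HWP : Prop :=
  ∀ (L L' : PeriodPair) (n : ℕ) (z₀ : ℂ), 0 < n → IsSuper L L' n z₀ →
    ∀ z : ℂ, z ∉ L'.lattice →
      ℘[L'] z = ℘[L] z + ∑ k ∈ Finset.Ico 1 n, (℘[L] (z + k * z₀) - ℘[L] (k * z₀))

/-- `℘'` of the superlattice as a translation sum. -/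
def HDWP : Prop :=
  ∀ (L L' : PeriodPair) (n : ℕ) (z₀ : ℂ), 0 < n → IsSuper L L' n z₀ →
    ∀ z : ℂ, z ∉ L'.lattice → ℘'[L'] z = ∑ k ∈ Finset.range n, ℘'[L] (z + k * z₀)

/-- `g₃` of the superlattice. -/
def HG3 : Prop :=
  ∀ (L L' : PeriodPair) (n : ℕ) (z₀ : ℂ), 0 < n → IsSuper L L' n z₀ →
    L'.g₃ = L.g₃ + ∑ k ∈ Finset.Ico 1 n,
      (140 * ℘[L] (k * z₀) ^ 3 - 21 * L.g₂ * ℘[L] (k * z₀) - 14 * L.g₃)

/-- Uniformisation of a general Weierstrass curve over `ℂ` by a lattice with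
`g₂ = c₄/12`, `g₃ = c₆/216`: `℘ = x + b₂/12`, `℘' = 2y + a₁x + a₃`. -/
theorem exists_unif (Wc : WeierstrassCurve ℂ) (L : PeriodPair) (h2 : L.g₂ = Wc.c₄ / 12)
    (h3 : L.g₃ = Wc.c₆ / 216) :
    ∃ u : ℂ →+ Wc.toAffine.Point, Function.Surjective u ∧ (∀ z, u z = 0 ↔ z ∈ L.lattice) ∧
      ∀ z, z ∉ L.lattice → ℘[L] z = ptX (u z) + Wc.b₂ / 12 ∧ ℘'[L] z = psi2 (u z) := by
  have hΔL := Ell4.disc_ne_zero L
  have hsm : Top89.shortVC Wc • Wc = Wp75.curve L.g₂ L.g₃ := by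
    rw [Top89.shortVC_smul, h2, h3]; rfl
  refine ⟨(vcEquiv (Top89.shortVC Wc) hsm).toAddMonoidHom.comp (Wp75.toPoint L hΔL), ?_, ?_, ?_⟩
  · exact (vcEquiv (Top89.shortVC Wc) hsm).surjective.comp (Wp75.toPoint_surjective L hΔL)
  · intro z
    simp only [AddMonoidHom.comp_apply, AddEquiv.coe_toAddMonoidHom]
    rw [AddEquiv.map_eq_zero_iff, Wp75.toPoint_eq_zero_iff]
  · intro z hz
    simp only [AddMonoidHom.comp_apply, AddEquiv.coe_toAddMonoidHom]
    rw [Wp75.toPoint_of_notMem L hΔL hz]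
    constructor
    · rw [vcEquiv_some]
      simp only [ptX_some, vcX, Top89.shortVC, Units.val_one]
      ring
    · rw [Top89.psi2_vc (Top89.shortVC Wc) hsm rfl (Point.some_ne_zero _)]
      simp only [psi2, ptX_some, ptY_some, Wp75.curve_a₁, Wp75.curve_a₃]
      ring

/-- **Vélu's isogeny over `ℂ`.** -/
theorem velu_cx (hWP : HWP) (hDWP : HDWP) (hG3 : HG3)
    (Wc : WeierstrassCurve ℂ) (hΔ : Wc.Δ ≠ 0) (n : ℕ) (hn : Odd n)
    (T : Wc.toAffine.Point) (hT : addOrderOf T = n)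
    (Wc' : WeierstrassCurve ℂ) (hW' : Wc' = veluCurve Wc (veluT n T / 2) (veluW n T / 2)) :
    Wc'.Δ ≠ 0 ∧ Wc'.c₄ = veluC4 n T ∧ Wc'.Δ * veluPsi n T ^ 4 = Wc.Δ ^ n ∧
      ∃ ψ : Wc.toAffine.Point →+ Wc'.toAffine.Point,
        (∀ P, ψ P = 0 ↔ P ∈ AddSubgroup.zmultiples T) ∧
        ∀ P, P ∉ AddSubgroup.zmultiples T →
          ptX (ψ P) = veluX n T P ∧ ptY (ψ P) = veluY n T P := by
  subst hW'
  have hn0 : 0 < n := hn.pos
  -- the lattice of `Wc`
  have hrel : Wc.Δ = (Wc.c₄ / 12) ^ 3 - 27 * (Wc.c₆ / 216) ^ 2 := by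
    have h := Wc.c_relation
    linear_combination (1 / 1728 : ℂ) * h
  obtain ⟨L, hL2, hL3⟩ := Unif21.exists_periodPair (Wc.c₄ / 12) (Wc.c₆ / 216)
    (by rw [← hrel]; exact hΔ)
  obtain ⟨u, hus, huk, huc⟩ := exists_unif Wc L hL2 hL3
  obtain ⟨z₀, hz₀⟩ := hus T
  have hnat : ∀ k : ℕ, u ((k : ℂ) * z₀) = k • T := by
    intro k
    rw [← nsmul_eq_mul, map_nsmul, hz₀]
  have horder : ∀ k : ℕ, (k : ℂ) * z₀ ∈ L.lattice ↔ n ∣ k := by
    intro k
    rw [← huk, hnat, ← hT, addOrderOf_dvd_iff_nsmul_eq_zero]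
  obtain ⟨L', hS⟩ := Super.exists_super L n hn0 z₀ horder
  -- coordinates of the multiples of `T`
  have hk : ∀ k ∈ Finset.Ico 1 n, ℘[L] (k * z₀) = ptX (k • T) + Wc.b₂ / 12 ∧
      ℘'[L] (k * z₀) = psi2 (k • T) := by
    intro k hk
    have := huc _ (hS.nat_mul_notMem hk)
    rwa [hnat] at this
  have hkne : ∀ k ∈ Finset.Ico 1 n, k • T ≠ 0 := by
    intro k hk h0
    have := (huk ((k : ℂ) * z₀)).mp (by rw [hnat, h0])
    exact hS.nat_mul_notMem hk this
  -- `g₂` of the superlattice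
  have hg2 : L'.g₂ = Wc.c₄ / 12 + 10 * veluT n T := by
    rw [Isog4.g₂_super L L' n z₀ hn0 hS, hL2]
    congr 2
    apply Finset.sum_congr rfl
    intro k hkm
    rw [(hk k hkm).1]
    simp only [tq, WeierstrassCurve.c₄, WeierstrassCurve.b₂, WeierstrassCurve.b₄]
    ring
  -- `g₃` of the superlattice
  have hg3 : L'.g₃ = Wc.c₆ / 216 + (252 * Wc.b₂ * veluT n T + 3024 * veluW n T) / 216 := by
    rw [hG3 L L' n z₀ hn0 hS, hL2, hL3]
    congr 1
    unfold veluT veluW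
    rw [Finset.mul_sum, Finset.mul_sum, ← Finset.sum_add_distrib, Finset.sum_div]
    apply Finset.sum_congr rfl
    intro k hkm
    rw [(hk k hkm).1, psi2_sq (hkne k hkm)]
    simp only [tq, WeierstrassCurve.c₄, WeierstrassCurve.c₆, WeierstrassCurve.b₂,
      WeierstrassCurve.b₄, WeierstrassCurve.b₆]
    ring
  have hL2' : L'.g₂ = (veluCurve Wc (veluT n T / 2) (veluW n T / 2)).c₄ / 12 := by
    rw [hg2, veluCurve_c₄]; ring
  have hL3' : L'.g₃ = (veluCurve Wc (veluT n T / 2) (veluW n T / 2)).c₆ / 216 := by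
    rw [hg3, veluCurve_c₆]; ring
  have hrel' : (veluCurve Wc (veluT n T / 2) (veluW n T / 2)).Δ = L'.g₂ ^ 3 - 27 * L'.g₃ ^ 2 := by
    have h := (veluCurve Wc (veluT n T / 2) (veluW n T / 2)).c_relation
    rw [hL2', hL3']
    linear_combination (1 / 1728 : ℂ) * h
  have hrelL : Wc.Δ = L.g₂ ^ 3 - 27 * L.g₃ ^ 2 := by rw [hL2, hL3, hrel]
  have hpsi : veluPsi n T = ∏ k ∈ Finset.Ico 1 n, ℘'[L] (k * z₀) := by
    unfold veluPsi
    exact Finset.prod_congr rfl fun k hkm => ((hk k hkm).2).symm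
  refine ⟨?_, ?_, ?_, ?_⟩
  · rw [hrel']; exact Ell4.disc_ne_zero L'
  · rw [veluCurve_c₄]
    unfold veluC4 veluT
    ring
  · rw [hrel', hrelL, hpsi]
    exact Isog4.disc_super L L' n z₀ hn hS
  -- the isogeny
  obtain ⟨u', hus', huk', huc'⟩ := exists_unif _ L' hL2' hL3'
  have hker : u.ker ≤ u'.ker := by
    intro z hz
    rw [AddMonoidHom.mem_ker] at hz ⊢
    exact (huk' z).mpr (hS.le ((huk z).mp hz))
  let ψ := (u.liftOfRightInverse (Function.surjInv hus) (Function.rightInverse_surjInv hus))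
    ⟨u', hker⟩
  have hψ : ∀ z, ψ (u z) = u' z := fun z =>
    AddMonoidHom.liftOfRightInverse_comp_apply u (Function.surjInv hus)
      (Function.rightInverse_surjInv hus) ⟨u', hker⟩ z
  have hkerψ : ∀ z, u' z = 0 ↔ u z ∈ AddSubgroup.zmultiples T := by
    intro z
    rw [huk', hS.mem]
    constructor
    · rintro ⟨k, hk⟩
      have h0 := (huk _).mpr hk
      rw [map_sub, hnat, sub_eq_zero] at h0
      rw [h0]
      exact AddSubgroup.nsmul_mem_zmultiples T k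
    · intro hz
      obtain ⟨m, hm⟩ := AddSubgroup.mem_zmultiples_iff.mp hz
      have hmm : m • T = (m % (n : ℤ)).toNat • T := by
        have hnn : 0 ≤ m % (n : ℤ) := Int.emod_nonneg _ (by exact_mod_cast hn0.ne')
        rw [← natCast_zsmul, Int.toNat_of_nonneg hnn, ← hT, zsmul_eq_zsmul_iff_modEq]
        exact (Int.mod_modEq m _).symm
      refine ⟨(m % (n : ℤ)).toNat, ?_⟩
      rw [← huk, map_sub, hnat, ← hmm, hm, sub_self]
  refine ⟨ψ, ?_, ?_⟩
  · intro P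
    obtain ⟨z, rfl⟩ := hus P
    rw [hψ, hkerψ]
  · intro P hP
    obtain ⟨z, rfl⟩ := hus P
    have hz : z ∉ L'.lattice := by
      intro h
      exact hP ((hkerψ z).mp ((huk' z).mpr h))
    have hzk : ∀ k : ℕ, ℘[L] (z + k * z₀) = ptX (u z + k • T) + Wc.b₂ / 12 ∧
        ℘'[L] (z + k * z₀) = psi2 (u z + k • T) := by
      intro k
      have := huc _ (hS.add_notMem hz k)
      rwa [map_add, hnat] at this
    have hz0 : z ∉ L.lattice := fun h => hz (hS.le h)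
    have hX : ptX (ψ (u z)) = veluX n T (u z) := by
      have h1 := (huc' z hz).1
      rw [hWP L L' n z₀ hn0 hS z hz, (huc z hz0).1, veluCurve_b₂] at h1
      rw [hψ]
      unfold veluX
      have h2 : ∑ k ∈ Finset.Ico 1 n, (℘[L] (z + k * z₀) - ℘[L] (k * z₀))
          = ∑ k ∈ Finset.Ico 1 n, (ptX (u z + k • T) - ptX (k • T)) := by
        apply Finset.sum_congr rfl
        intro k hkm
        rw [(hzk k).1, (hk k hkm).1]
        ring
      rw [h2] at h1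
      linear_combination -h1
    refine ⟨hX, ?_⟩
    have h1 := (huc' z hz).2
    rw [hDWP L L' n z₀ hn0 hS z hz] at h1
    have h2 : ∑ k ∈ Finset.range n, ℘'[L] (z + k * z₀)
        = ∑ k ∈ Finset.range n, psi2 (u z + k • T) :=
      Finset.sum_congr rfl fun k _ => (hzk k).2
    rw [h2, Finset.range_eq_Ico, Finset.sum_eq_sum_Ico_succ_bot hn0] at h1
    simp only [zero_add, zero_nsmul, add_zero] at h1
    have h3 := sum_psi2_eq_zero hT
    rw [← hψ] at h1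
    unfold veluY
    have hXe : ptX (ψ (u z)) = ptX (u z) + ∑ k ∈ Finset.Ico 1 n, (ptX (u z + k • T) - ptX (k • T)) :=
      hX
    have h4 : ∑ k ∈ Finset.Ico 1 n, psi2 (u z + k • T)
        = ∑ k ∈ Finset.Ico 1 n, (2 * ptY (u z + k • T) + Wc.a₁ * ptX (u z + k • T) + Wc.a₃) :=
      Finset.sum_congr rfl fun k _ => rfl
    have h5 : ∑ k ∈ Finset.Ico 1 n, psi2 (k • T)
        = ∑ k ∈ Finset.Ico 1 n, (2 * ptY (k • T) + Wc.a₁ * ptX (k • T) + Wc.a₃) :=
      Finset.sum_congr rfl fun k _ => rfl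
    have h6 : ∑ k ∈ Finset.Ico 1 n, (ptY (u z + k • T) - ptY (k • T))
        = (∑ k ∈ Finset.Ico 1 n, (2 * ptY (u z + k • T) + Wc.a₁ * ptX (u z + k • T) + Wc.a₃)
          - ∑ k ∈ Finset.Ico 1 n, (2 * ptY (k • T) + Wc.a₁ * ptX (k • T) + Wc.a₃)
          - Wc.a₁ * ∑ k ∈ Finset.Ico 1 n, (ptX (u z + k • T) - ptX (k • T))) / 2 := by
      rw [Finset.mul_sum, ← Finset.sum_sub_distrib, ← Finset.sum_sub_distrib, Finset.sum_div]
      apply Finset.sum_congr rfl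
      intro k _
      ring
    rw [h6, ← h4, ← h5, h3]
    have h7 : psi2 (ψ (u z)) = 2 * ptY (ψ (u z)) + Wc.a₁ * ptX (ψ (u z)) + Wc.a₃ := rfl
    have h8 : psi2 (u z) = 2 * ptY (u z) + Wc.a₁ * ptX (u z) + Wc.a₃ := rfl
    rw [h7, h8, hXe] at h1
    linear_combination (-1 / 2 : ℂ) * h1

end Fermat.Agent.S12P.Velu82
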