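/-
S12 cell, brick (Q-alg), top file (helper82): **Vélu's isogeny on `ℚ̄`-points**.

`W` a Weierstrass curve over `ℚ` with `Δ ≠ 0`, `T` a point of odd order `n` over `ℚ̄` whose cyclic
group `⟨T⟩` is Galois-stable.  Then Vélu's `t`, `w` are rational, the Vélu model
`veluCurve W t w = [a₁, a₂, a₃, a₄ - 5t, a₆ - b₂t - 7w]` is nonsingular with
`c₄ = veluC4 n T`, `Δ · veluPsi⁴ = Δ(W)^n`, and there is a Galois-equivariant group homomorphism
`W(ℚ̄) → veluCurve(ℚ̄)` with kernel `⟨T⟩`, given outside the kernel by the translation sums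
`veluX`, `veluY`.
-/
import Mathlib
import Fermat.Prelude.Def_GaloisRep_ComplexConjugation
import Fermat.Agent.S12P.Velu82.Cx
import Fermat.Agent.S12P.Velu82.Alg

set_option autoImplicit false

namespace Fermat.Agent.S12P.Velu82

open WeierstrassCurve WeierstrassCurve.Affine Fermat.Agent.S15P.M2

local notation "Qb" => AlgebraicClosure ℚ
local notation "GQ" => (AlgebraicClosure ℚ ≃ₐ[ℚ] AlgebraicClosure ℚ)

/-! ### The point with prescribed coordinates -/

section MkPt

open Classical in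
/-- The point `(x, y)` if it is a nonsingular point of `W`, and `0` otherwise. -/
noncomputable def mkPt {F : Type*} [Field F] (W : Affine F) (x y : F) : W.Point :=
  if h : W.Nonsingular x y then Point.some x y h else 0

variable {F : Type*} [Field F] {W : Affine F}

theorem mkPt_of {x y : F} (h : W.Nonsingular x y) : mkPt W x y = Point.some x y h := by
  unfold mkPt
  rw [dif_pos h]

theorem mkPt_of_not {x y : F} (h : ¬ W.Nonsingular x y) : mkPt W x y = 0 := by
  unfold mkPt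
  rw [dif_neg h]

theorem mkPt_coords {P : W.Point} (hP : P ≠ 0) : mkPt W (ptX P) (ptY P) = P := by
  rcases P with _ | ⟨x, y, h⟩
  · exact absurd rfl hP
  · exact mkPt_of h

theorem ptX_mkPt {x y : F} (h : mkPt W x y ≠ 0) : ptX (mkPt W x y) = x := by
  by_cases hns : W.Nonsingular x y
  · rw [mkPt_of hns]; rfl
  · exact absurd (mkPt_of_not hns) h

theorem ptY_mkPt {x y : F} (h : mkPt W x y ≠ 0) : ptY (mkPt W x y) = y := by
  by_cases hns : W.Nonsingular x y
  · rw [mkPt_of hns]; rfl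
  · exact absurd (mkPt_of_not hns) h

end MkPt

section MkPtMap

variable (W : WeierstrassCurve ℚ) {K : Type*} [Field K] [DecidableEq K] [Algebra ℚ K]
  (f : Qb →ₐ[ℚ] K)

theorem map_mkPt (x y : Qb) : Point.map f (mkPt (W⁄Qb) x y) = mkPt (W⁄K) (f x) (f y) := by
  by_cases h : (W⁄Qb).Nonsingular x y
  · have h' : (W⁄K).Nonsingular (f x) (f y) := (WeierstrassCurve.Affine.baseChange_nonsingular (W := W) f.injective x y).mpr h
    rw [mkPt_of h, mkPt_of h']
    rfl
  · have h' : ¬ (W⁄K).Nonsingular (f x) (f y) := fun hh =>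
      h ((WeierstrassCurve.Affine.baseChange_nonsingular (W := W) f.injective x y).mp hh)
    rw [mkPt_of_not h, mkPt_of_not h']
    rfl

end MkPtMap

/-! ### Galois invariance -/

section Galois

variable (W : WeierstrassCurve ℚ)

theorem smul_eq_map (σ : GQ) (P : (W⁄Qb).Point) : σ • P = Point.map σ.toAlgHom P := rfl

theorem addOrderOf_smul (σ : GQ) (T : (W⁄Qb).Point) : addOrderOf (σ • T) = addOrderOf T :=
  addOrderOf_map W σ.toAlgHom T

theorem smul_mem_zmultiples {T : (W⁄Qb).Point}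
    (hG : ∀ σ : GQ, σ • T ∈ AddSubgroup.zmultiples T) (σ : GQ) {P : (W⁄Qb).Point}
    (hP : P ∈ AddSubgroup.zmultiples T) : σ • P ∈ AddSubgroup.zmultiples T := by
  obtain ⟨m, rfl⟩ := AddSubgroup.mem_zmultiples_iff.mp hP
  rw [Point.algEquiv_smul_zsmul]
  exact (AddSubgroup.zmultiples T).zsmul_mem (hG σ) m

theorem smul_mem_zmultiples_iff {T : (W⁄Qb).Point}
    (hG : ∀ σ : GQ, σ • T ∈ AddSubgroup.zmultiples T) (σ : GQ) (P : (W⁄Qb).Point) :
    σ • P ∈ AddSubgroup.zmultiples T ↔ P ∈ AddSubgroup.zmultiples T := by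
  constructor
  · intro h
    have := smul_mem_zmultiples W hG σ⁻¹ h
    rwa [inv_smul_smul] at this
  · exact smul_mem_zmultiples W hG σ

theorem veluT_fixed {n : ℕ} (hn : 0 < n) {T : (W⁄Qb).Point} (hT : addOrderOf T = n)
    (hG : ∀ σ : GQ, σ • T ∈ AddSubgroup.zmultiples T) (σ : GQ) : σ (veluT n T) = veluT n T := by
  have h := veluT_map W σ.toAlgHom n T
  rw [← smul_eq_map] at h
  exact h.trans (veluT_congr hn hT ((addOrderOf_smul W σ T).trans hT) (hG σ))

theorem veluW_fixed {n : ℕ} (hn : 0 < n) {T : (W⁄Qb).Point} (hT : addOrderOf T = n)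
    (hG : ∀ σ : GQ, σ • T ∈ AddSubgroup.zmultiples T) (σ : GQ) : σ (veluW n T) = veluW n T := by
  have h := veluW_map W σ.toAlgHom n T
  rw [← smul_eq_map] at h
  exact h.trans (veluW_congr hn hT ((addOrderOf_smul W σ T).trans hT) (hG σ))

theorem veluX_smul {n : ℕ} (hn : 0 < n) {T : (W⁄Qb).Point} (hT : addOrderOf T = n)
    (hG : ∀ σ : GQ, σ • T ∈ AddSubgroup.zmultiples T) (σ : GQ) (P : (W⁄Qb).Point) :
    σ (veluX n T P) = veluX n T (σ • P) := by
  have h := veluX_map W σ.toAlgHom n T P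
  rw [← smul_eq_map, ← smul_eq_map] at h
  exact h.trans (veluX_congr hn hT ((addOrderOf_smul W σ T).trans hT) (hG σ) _)

theorem veluY_smul {n : ℕ} (hn : 0 < n) {T : (W⁄Qb).Point} (hT : addOrderOf T = n)
    (hG : ∀ σ : GQ, σ • T ∈ AddSubgroup.zmultiples T) (σ : GQ) (P : (W⁄Qb).Point) :
    σ (veluY n T P) = veluY n T (σ • P) := by
  have h := veluY_map W σ.toAlgHom n T P
  rw [← smul_eq_map, ← smul_eq_map] at h
  exact h.trans (veluY_congr hn hT ((addOrderOf_smul W σ T).trans hT) (hG σ) _)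

/-- Vélu's `t` and `w` are rational when `⟨T⟩` is Galois-stable. -/
theorem exists_rat_tw {n : ℕ} (hn : 0 < n) {T : (W⁄Qb).Point} (hT : addOrderOf T = n)
    (hG : ∀ σ : GQ, σ • T ∈ AddSubgroup.zmultiples T) :
    ∃ t w : ℚ, (t : Qb) = veluT n T / 2 ∧ (w : Qb) = veluW n T / 2 := by
  obtain ⟨t, ht⟩ := Fermat.Agent.Lib.GalQbar.exists_ratCast_of_fixed (veluT n T / 2) (by
    intro σ
    rw [map_div₀, veluT_fixed W hn hT hG σ, map_ofNat])
  obtain ⟨w, hw⟩ := Fermat.Agent.Lib.GalQbar.exists_ratCast_of_fixed (veluW n T / 2) (by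
    intro σ
    rw [map_div₀, veluW_fixed W hn hT hG σ, map_ofNat])
  exact ⟨t, w, ht, hw⟩

end Galois

end Fermat.Agent.S12P.Velu82
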