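/-
S12 cell, brick (Q-alg), assembly (helper82): `exists_velu`, Vélu's isogeny on `ℚ̄`-points of a
Weierstrass curve over `ℚ` with a Galois-stable cyclic subgroup of odd order (see `Main.lean`).
The three analytic identities `HWP`, `HDWP`, `HG3` are explicit hypotheses here; they are
instantiated in `Inst.lean`.
-/
import Mathlib
import Fermat.Agent.S12P.Velu82.Main

set_option autoImplicit false

namespace Fermat.Agent.S12P.Velu82

open WeierstrassCurve WeierstrassCurve.Affine Fermat.Agent.S15P.M2 Fermat.Agent.S15P.M1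

local notation "Qb" => AlgebraicClosure ℚ
local notation "GQ" => (AlgebraicClosure ℚ ≃ₐ[ℚ] AlgebraicClosure ℚ)

/-- **Vélu's isogeny on `ℚ̄`-points.** -/
theorem exists_velu_of (hWP : HWP) (hDWP : HDWP) (hG3 : HG3)
    (W : WeierstrassCurve ℚ) (hΔ : W.Δ ≠ 0) (n : ℕ) (hn : Odd n)
    (T : (W⁄Qb).Point) (hT : addOrderOf T = n)
    (hG : ∀ σ : GQ, σ • T ∈ AddSubgroup.zmultiples T) :
    ∃ t w : ℚ, (t : Qb) = veluT n T / 2 ∧ (w : Qb) = veluW n T / 2 ∧
      (veluCurve W t w).Δ ≠ 0 ∧ (((veluCurve W t w).c₄ : ℚ) : Qb) = veluC4 n T ∧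
      (((veluCurve W t w).Δ : ℚ) : Qb) * veluPsi n T ^ 4 = ((W.Δ : ℚ) : Qb) ^ n ∧
      ∃ φ : (W⁄Qb).Point →+ ((veluCurve W t w)⁄Qb).Point,
        (∀ (σ : GQ) (P : (W⁄Qb).Point), φ (σ • P) = σ • φ P) ∧
        (∀ P, φ P = 0 ↔ P ∈ AddSubgroup.zmultiples T) ∧
        ∀ P, P ∉ AddSubgroup.zmultiples T →
          ptX (φ P) = veluX n T P ∧ ptY (φ P) = veluY n T P := by
  have hn0 := hn.pos
  obtain ⟨t, w, ht, hw⟩ := exists_rat_tw W hn0 hT hG
  refine ⟨t, w, ht, hw, ?_⟩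
  generalize hW'def : veluCurve W t w = W'
  let ι : Qb →ₐ[ℚ] ℂ := complexEmbedding
  have hιinj : Function.Injective ι := ι.toRingHom.injective
  have hTc : addOrderOf (Point.map ι T) = n := (addOrderOf_map W ι T).trans hT
  -- the complex Vélu curve is the base change of `W'`
  have e1 : algebraMap ℚ ℂ t = veluT n (Point.map ι T) / 2 := by
    rw [← veluT_map W ι n T, ← map_ofNat ι 2, ← map_div₀, ← ht, map_ratCast, eq_ratCast]
  have e2 : algebraMap ℚ ℂ w = veluW n (Point.map ι T) / 2 := by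
    rw [← veluW_map W ι n T, ← map_ofNat ι 2, ← map_div₀, ← hw, map_ratCast, eq_ratCast]
  have hWc' : W'.map (algebraMap ℚ ℂ) = veluCurve (W.map (algebraMap ℚ ℂ))
      (veluT n (Point.map ι T) / 2) (veluW n (Point.map ι T) / 2) := by
    rw [← hW'def, veluCurve_map, e1, e2]
  have hΔc : (W.map (algebraMap ℚ ℂ)).Δ ≠ 0 := by
    rw [map_Δ]
    exact (map_ne_zero _).mpr hΔ
  obtain ⟨hΔc', hc4, hdisc, ψ₀, hψk₀, hψc₀⟩ := velu_cx hWP hDWP hG3 (W.map (algebraMap ℚ ℂ)) hΔc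
    n hn (Point.map ι T) hTc (W'.map (algebraMap ℚ ℂ)) hWc'
  obtain ⟨ψ, hψk, hψc⟩ : ∃ ψ : (W⁄ℂ).Point →+ (W'⁄ℂ).Point,
      (∀ P : (W⁄ℂ).Point, ψ P = 0 ↔ P ∈ AddSubgroup.zmultiples (Point.map ι T)) ∧
      ∀ P : (W⁄ℂ).Point, P ∉ AddSubgroup.zmultiples (Point.map ι T) →
        ptX (ψ P) = veluX n (Point.map ι T) P ∧ ptY (ψ P) = veluY n (Point.map ι T) P :=
    ⟨ψ₀, hψk₀, hψc₀⟩
  refine ⟨?_, ?_, ?_, ?_⟩
  · intro h0
    apply hΔc'
    rw [map_Δ, h0, map_zero]
  · apply hιinj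
    have h1 : ((W'.c₄ : ℚ) : ℂ) = (W'.map (algebraMap ℚ ℂ)).c₄ := by rw [map_c₄, eq_ratCast]
    exact (map_ratCast ι _).trans (h1.trans (hc4.trans (Top89.veluC4_map W ι n T).symm))
  · apply hιinj
    rw [map_mul, map_pow, map_pow, map_ratCast, map_ratCast, Top89.veluPsi_map W ι n T]
    have h1 : ((W'.Δ : ℚ) : ℂ) = (W'.map (algebraMap ℚ ℂ)).Δ := by rw [map_Δ, eq_ratCast]
    have h2 : ((W.Δ : ℚ) : ℂ) = (W.map (algebraMap ℚ ℂ)).Δ := by rw [map_Δ, eq_ratCast]
    rw [h1, h2]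
    exact hdisc
  -- the isogeny
  classical
  let φf : (W⁄Qb).Point → (W'⁄Qb).Point := fun P =>
    if P ∈ AddSubgroup.zmultiples T then 0 else mkPt (W'⁄Qb) (veluX n T P) (veluY n T P)
  have hmemc : ∀ P : (W⁄Qb).Point,
      Point.map ι P ∈ AddSubgroup.zmultiples (Point.map ι T) ↔ P ∈ AddSubgroup.zmultiples T := by
    intro P
    constructor
    · intro h
      obtain ⟨m, hm⟩ := AddSubgroup.mem_zmultiples_iff.mp h
      have : Point.map ι (m • T) = Point.map ι P := by rw [map_zsmul]; exact hm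
      exact AddSubgroup.mem_zmultiples_iff.mpr ⟨m, Point.map_injective ι this⟩
    · intro h
      obtain ⟨m, rfl⟩ := AddSubgroup.mem_zmultiples_iff.mp h
      rw [map_zsmul]
      exact AddSubgroup.zsmul_mem_zmultiples _ m
  have key : ∀ P : (W⁄Qb).Point, Point.map ι (φf P) = ψ (Point.map ι P) := by
    intro P
    by_cases hP : P ∈ AddSubgroup.zmultiples T
    · simp only [φf, if_pos hP]
      rw [map_zero]
      exact ((hψk _).mpr ((hmemc P).mpr hP)).symm
    · simp only [φf, if_neg hP]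
      have hPc : Point.map ι P ∉ AddSubgroup.zmultiples (Point.map ι T) :=
        fun h => hP ((hmemc P).mp h)
      have hne : ψ (Point.map ι P) ≠ 0 := fun h => hPc ((hψk _).mp h)
      obtain ⟨hx, hy⟩ := hψc _ hPc
      rw [map_mkPt, veluX_map, veluY_map]
      have hm := mkPt_coords hne
      rw [hx, hy] at hm
      exact hm
  have hadd : ∀ P Q : (W⁄Qb).Point, φf (P + Q) = φf P + φf Q := by
    intro P Q
    apply Point.map_injective ι
    rw [map_add, key, key, key, map_add, map_add]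
  let φ : (W⁄Qb).Point →+ (W'⁄Qb).Point := AddMonoidHom.mk' φf hadd
  have hφ0 : ∀ P : (W⁄Qb).Point, φ P = 0 ↔ P ∈ AddSubgroup.zmultiples T := by
    intro P
    constructor
    · intro h
      have hk := key P
      rw [show φf P = 0 from h, map_zero] at hk
      exact (hmemc P).mp ((hψk _).mp hk.symm)
    · intro h
      show φf P = 0
      simp only [φf, if_pos h]
  refine ⟨φ, ?_, hφ0, ?_⟩
  · intro σ P
    by_cases hP : P ∈ AddSubgroup.zmultiples T
    · have hσP := (smul_mem_zmultiples_iff W hG σ P).mpr hP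
      rw [(hφ0 _).mpr hσP, (hφ0 _).mpr hP]
      rfl
    · have hσP : σ • P ∉ AddSubgroup.zmultiples T :=
        fun h => hP ((smul_mem_zmultiples_iff W hG σ P).mp h)
      show φf (σ • P) = σ • φf P
      simp only [φf, if_neg hP, if_neg hσP]
      rw [smul_eq_map W' σ, map_mkPt]
      have hx := veluX_smul W hn0 hT hG σ P
      have hy := veluY_smul W hn0 hT hG σ P
      rw [← hx, ← hy]
      rfl
  · intro P hP
    have hne : φ P ≠ 0 := fun h => hP ((hφ0 P).mp h)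
    have hφP : φ P = mkPt (W'⁄Qb) (veluX n T P) (veluY n T P) := by
      show φf P = _
      simp only [φf, if_neg hP]
    rw [hφP] at hne ⊢
    exact ⟨ptX_mkPt hne, ptY_mkPt hne⟩

end Fermat.Agent.S12P.Velu82
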