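/-
S12 cell, brick (Q-alg), instantiation (helper82): the three analytic identities are helper4's
landed `S12P/IsogPt4` — `velu_complex` and `exists_velu` with NO hypothesis left.
-/
import Mathlib
import Fermat.Agent.S12P.IsogPt4
import Fermat.Agent.S12P.Velu82.Top

set_option autoImplicit false

namespace Fermat.Agent.S12P.Velu82

open WeierstrassCurve WeierstrassCurve.Affine Fermat.Agent.S15P.M2 Fermat.Agent.S15P.M1

local notation "Qb" => AlgebraicClosure ℚ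
local notation "GQ" => (AlgebraicClosure ℚ ≃ₐ[ℚ] AlgebraicClosure ℚ)

theorem hWP : HWP := fun L L' n z₀ hn h z _ => IsogPt4.wp_super L L' n z₀ hn h z

theorem hDWP : HDWP := fun L L' n z₀ hn h z _ => IsogPt4.dwp_super L L' n z₀ hn h z

theorem hG3 : HG3 := fun L L' n z₀ hn h => IsogPt4.g₃_super L L' n z₀ hn h

/-- **Vélu's isogeny over `ℂ`**, general Weierstrass model, cyclic kernel of any odd order. -/
theorem velu_complex (Wc : WeierstrassCurve ℂ) (hΔ : Wc.Δ ≠ 0) (n : ℕ) (hn : Odd n)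
    (T : Wc.toAffine.Point) (hT : addOrderOf T = n)
    (Wc' : WeierstrassCurve ℂ) (hW' : Wc' = veluCurve Wc (veluT n T / 2) (veluW n T / 2)) :
    Wc'.Δ ≠ 0 ∧ Wc'.c₄ = veluC4 n T ∧ Wc'.Δ * veluPsi n T ^ 4 = Wc.Δ ^ n ∧
      ∃ ψ : Wc.toAffine.Point →+ Wc'.toAffine.Point,
        (∀ P, ψ P = 0 ↔ P ∈ AddSubgroup.zmultiples T) ∧
        ∀ P, P ∉ AddSubgroup.zmultiples T →
          ptX (ψ P) = veluX n T P ∧ ptY (ψ P) = veluY n T P :=
  velu_cx hWP hDWP hG3 Wc hΔ n hn T hT Wc' hW'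

/-- **Vélu's isogeny on `ℚ̄`-points** of a Weierstrass curve over `ℚ` with a Galois-stable cyclic
subgroup `⟨T⟩` of odd order `n`: rational Vélu model `veluCurve W t w`, nonsingular, with
`c₄ = veluC4 n T` and `Δ · veluPsi⁴ = Δ(W)^n`, and a Galois-equivariant group homomorphism with
kernel `⟨T⟩` given outside the kernel by the translation sums `veluX`, `veluY`. -/
theorem exists_velu (W : WeierstrassCurve ℚ) (hΔ : W.Δ ≠ 0) (n : ℕ) (hn : Odd n)
    (T : (W⁄Qb).Point) (hT : addOrderOf T = n)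
    (hG : ∀ σ : GQ, σ • T ∈ AddSubgroup.zmultiples T) :
    ∃ t w : ℚ, (t : Qb) = veluT n T / 2 ∧ (w : Qb) = veluW n T / 2 ∧
      (veluCurve W t w).Δ ≠ 0 ∧ (((veluCurve W t w).c₄ : ℚ) : Qb) = veluC4 n T ∧
      (((veluCurve W t w).Δ : ℚ) : Qb) * veluPsi n T ^ 4 = ((W.Δ : ℚ) : Qb) ^ n ∧
      ∃ φ : (W⁄Qb).Point →+ ((veluCurve W t w)⁄Qb).Point,
        (∀ (σ : GQ) (P : (W⁄Qb).Point), φ (σ • P) = σ • φ P) ∧
        (∀ P, φ P = 0 ↔ P ∈ AddSubgroup.zmultiples T) ∧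
        ∀ P, P ∉ AddSubgroup.zmultiples T →
          ptX (φ P) = veluX n T P ∧ ptY (φ P) = veluY n T P :=
  exists_velu_of hWP hDWP hG3 W hΔ n hn T hT hG

end Fermat.Agent.S12P.Velu82
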