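/-
S12 cell, brick (Q-alg), seam (helper82): `exists_velu` for a point of odd PRIME order with all
sums written out (no `veluT`/`veluW`/`veluX`/`veluY`/`veluCurve`), i.e. the body of helper53's
interface Prop `VeluQ` (row 633) verbatim.
-/
import Mathlib
import Fermat.Agent.S12P.Velu82.Inst

set_option autoImplicit false

namespace Fermat.Agent.S12P.Velu82

open WeierstrassCurve WeierstrassCurve.Affine Fermat.Agent.S15P.M2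

local notation "Qb" => AlgebraicClosure ℚ
local notation "GQ" => (AlgebraicClosure ℚ ≃ₐ[ℚ] AlgebraicClosure ℚ)

/-- The Vélu `p`-isogeny on `ℚ̄`-points, explicit form. -/
theorem exists_velu_explicit (W : WeierstrassCurve ℚ) (hΔ : W.Δ ≠ 0) (p : ℕ) (hp : p.Prime)
    (hp2 : p ≠ 2) (T : (W⁄Qb).Point) (hT : addOrderOf T = p)
    (hG : ∀ σ : GQ, σ • T ∈ AddSubgroup.zmultiples T) :
    ∃ (t w : ℚ) (φ : (W⁄Qb).Point →+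
        ((⟨W.a₁, W.a₂, W.a₃, W.a₄ - 5 * t, W.a₆ - W.b₂ * t - 7 * w⟩ : WeierstrassCurve ℚ)⁄Qb).Point),
      (t : Qb) = (∑ k ∈ Finset.Ico 1 p, tq (k • T)) / 2 ∧
      (w : Qb) = (∑ k ∈ Finset.Ico 1 p, (psi2 (k • T) ^ 2 + ptX (k • T) * tq (k • T))) / 2 ∧
      (⟨W.a₁, W.a₂, W.a₃, W.a₄ - 5 * t, W.a₆ - W.b₂ * t - 7 * w⟩ : WeierstrassCurve ℚ).Δ ≠ 0 ∧
      ((((⟨W.a₁, W.a₂, W.a₃, W.a₄ - 5 * t, W.a₆ - W.b₂ * t - 7 * w⟩ : WeierstrassCurve ℚ).c₄ : ℚ) : Qb)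
        = veluC4 p T) ∧
      ((((⟨W.a₁, W.a₂, W.a₃, W.a₄ - 5 * t, W.a₆ - W.b₂ * t - 7 * w⟩ : WeierstrassCurve ℚ).Δ : ℚ) : Qb)
        * veluPsi p T ^ 4 = ((W.Δ : ℚ) : Qb) ^ p) ∧
      (∀ (σ : GQ) (P : (W⁄Qb).Point), φ (σ • P) = σ • φ P) ∧
      (∀ P, φ P = 0 ↔ P ∈ AddSubgroup.zmultiples T) ∧
      ∀ P, P ∉ AddSubgroup.zmultiples T →
        ptX (φ P) = ptX P + ∑ k ∈ Finset.Ico 1 p, (ptX (P + k • T) - ptX (k • T)) ∧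
        ptY (φ P) = ptY P + ∑ k ∈ Finset.Ico 1 p, (ptY (P + k • T) - ptY (k • T)) := by
  obtain ⟨t, w, ht, hw, hΔ', hc4, hD, φ, he, hk, hc⟩ :=
    exists_velu W hΔ p (hp.odd_of_ne_two hp2) T hT hG
  exact ⟨t, w, φ, ht, hw, hΔ', hc4, hD, he, hk, hc⟩

end Fermat.Agent.S12P.Velu82
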